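import Fermat.Agent.DeligneSerre.Curve.Kummer
import Fermat.Agent.ModFun.AtkinLehner

/-!
# The diamond automorphisms of the function field of `±Γ₁(M)` over `ℚ̄`
-/

set_option autoImplicit false
set_option linter.unusedSectionVars false

noncomputable section

open UpperHalfPlane hiding I
open CongruenceSubgroup ModularCurve
open Fermat.Agent.JacTorsion (FQ extQ coe_extQ ιQ)
open Fermat.Agent.ModFun (actMer actMer_algebraMap MerH HolH toMerH_apply coe_actHol)
open scoped MatrixGroups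

namespace Fermat.Agent.DeligneSerre.Curve

local notation "Qb" => AlgebraicClosure ℚ

variable {M : ℕ}

/-- `dia` as an equivalence. -/
def diaEquiv (u : (ZMod M)ˣ) : Hol1 M ≃ₐ[ℂ] Hol1 M :=
  AlgEquiv.ofAlgHom (dia M u) (dia M u⁻¹)
    (AlgHom.ext fun f => by
      rw [AlgHom.comp_apply, dia_dia, inv_mul_cancel, dia_one, AlgHom.id_apply])
    (AlgHom.ext fun f => by
      rw [AlgHom.comp_apply, dia_dia, mul_inv_cancel, dia_one, AlgHom.id_apply])

@[simp]
theorem diaEquiv_apply (u : (ZMod M)ˣ) (f : Hol1 M) : diaEquiv u f = dia M u f := rfl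

variable [NeZero M] [GoodLevel M]

/-- The diamond automorphism of the complex field. -/
def diaF (u : (ZMod M)ˣ) : F1C M ≃ₐ[ℂ] F1C M :=
  IsFractionRing.algEquivOfAlgEquiv (diaEquiv u)

theorem diaF_toF1C (u : (ZMod M)ˣ) (f : Hol1 M) :
    diaF u (toF1C M f) = toF1C M (dia M u f) :=
  IsFractionRing.algEquivOfAlgEquiv_algebraMap (diaEquiv u) f

theorem e11_diaF (u : (ZMod M)ˣ) (x : F1C M) :
    e11 M (diaF u x) = actMer (diaRep u) (e11 M x) := by
  obtain ⟨a, b, -, rfl⟩ := exists_div_eq1 x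
  have key : ∀ f : Hol1 M,
      e11 M (toF1C M (dia M u f)) = actMer (diaRep u) (e11 M (toF1C M f)) := fun f => by
    rw [e11_toF1C, e11_toF1C, actMer_algebraMap]
    exact congrArg _ (Subtype.ext (funext fun τ => rfl))
  simp only [map_div₀, diaF_toF1C, key]

theorem diaF_uK (u a : (ZMod M)ˣ) :
    ((diaF u ⟨uK ℂ a, uK_mem_baseChange ℂ a⟩ : F1C M) : LaurentSeries ℂ) = uK ℂ (a * u) := by
  rw [show (⟨uK ℂ a, uK_mem_baseChange ℂ a⟩ : F1C M) = toF1C M (uC a) from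
    Subtype.ext (qExp1_uC a).symm, diaF_toF1C, dia_uC, coe_toF1C, qExp1_uC]

theorem diaF_full (u : (ZMod M)ˣ) (x : F1C M)
    (hx : (x : LaurentSeries ℂ) ∈ laurentBaseChange ℂ (modularFunctionFieldFull M)) :
    diaF u x = x := by
  rw [ModFun.laurentBaseChange_eq_fullC] at hx
  obtain ⟨a, b, hb, h⟩ := ModFun.exists_div_eq (N := M) ⟨_, hx⟩
  have hxe : x = toF1C M (Subalgebra.inclusion Hol_le_Hol1 a) /
      toF1C M (Subalgebra.inclusion Hol_le_Hol1 b) := by
    refine Subtype.ext ?_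
    simpa [qExp1_inclusion] using congrArg Subtype.val h
  rw [hxe, map_div₀, diaF_toF1C, diaF_toF1C, dia_inclusion, dia_inclusion]

theorem cExt_F1 : JacTorsion.cExt ιQ (FQ (F1 M)) = F1C M :=
  JacTorsion.cExt_laurentBaseChange (F1 M)

/-- An element of the complex field with coefficients in `ℚ̄` comes from `ℚ̄`. -/
theorem exists_emb_eq {x : F1C M} {y : LaurentSeries Qb}
    (h : coeffMap ιQ y = (x : LaurentSeries ℂ)) :
    ∃ z : FQ (F1 M), (z : LaurentSeries Qb) = y ∧ (extQ (F1 M)).emb z = x := by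
  have hy : y ∈ FQ (F1 M) := JacTorsion.mem_of_coeffMap_mem_cExt (ι := ιQ) (by
    rw [cExt_F1, h]; exact x.2)
  exact ⟨⟨y, hy⟩, rfl, Subtype.ext h⟩

/-- A subfield of `FQ (F1 M)` with the constants and the generators is everything. -/
theorem mem_of_gens (T : Subfield (FQ (F1 M))) (hc : ∀ a : Qb, algebraMap Qb (FQ (F1 M)) a ∈ T)
    (hfull : ∀ x : FQ (F1 M),
      (x : LaurentSeries Qb) ∈ laurentBaseChange Qb (modularFunctionFieldFull M) → x ∈ T)
    (hu : ∀ a : (ZMod M)ˣ,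
      (⟨uK Qb a, uK_mem_baseChange Qb a⟩ : FQ (F1 M)) ∈ T) (x : FQ (F1 M)) : x ∈ T :=
  ModFun.mem_of_eq_adjoin _ (baseChange_F1_eq Qb) T hc (fun x hx => by
    rcases hx with hx | ⟨a, ha⟩
    · exact hfull x hx
    · exact (show (⟨uK Qb a, uK_mem_baseChange Qb a⟩ : FQ (F1 M)) = x from Subtype.ext ha) ▸ hu a) x

theorem emb_uK (a : (ZMod M)ˣ) :
    (extQ (F1 M)).emb ⟨uK Qb a, uK_mem_baseChange Qb a⟩ = ⟨uK ℂ a, uK_mem_baseChange ℂ a⟩ :=
  Subtype.ext (by rw [coe_extQ]; exact coeffMap_uK Qb ιQ a)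

theorem emb_full (x : FQ (F1 M))
    (hx : (x : LaurentSeries Qb) ∈ laurentBaseChange Qb (modularFunctionFieldFull M)) :
    (((extQ (F1 M)).emb x : F1C M) : LaurentSeries ℂ) ∈
      laurentBaseChange ℂ (modularFunctionFieldFull M) := by
  rw [coe_extQ, ← JacTorsion.cExt_laurentBaseChange (ι := ιQ)]
  exact JacTorsion.coeffMap_mem_cExt ιQ _ hx

theorem diaF_emb_uK (u a : (ZMod M)ˣ) :
    diaF u ((extQ (F1 M)).emb ⟨uK Qb a, uK_mem_baseChange Qb a⟩)
      = (extQ (F1 M)).emb ⟨uK Qb (a * u), uK_mem_baseChange Qb (a * u)⟩ := by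
  rw [emb_uK, emb_uK]
  exact Subtype.ext (diaF_uK u a)

theorem exists_diaFQ (u : (ZMod M)ˣ) (x : FQ (F1 M)) :
    ∃ z : FQ (F1 M), (extQ (F1 M)).emb z = diaF u ((extQ (F1 M)).emb x) := by
  let T : Subfield (FQ (F1 M)) := Subfield.comap
    (((diaF u).toAlgHom.toRingHom).comp (extQ (F1 M)).emb) (extQ (F1 M)).emb.fieldRange
  have hmem : ∀ y z : FQ (F1 M), (extQ (F1 M)).emb z = diaF u ((extQ (F1 M)).emb y) → y ∈ T :=
    fun y z h => Subfield.mem_comap.mpr (RingHom.mem_fieldRange.mpr ⟨z, h⟩)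
  have hT : x ∈ T := mem_of_gens T
    (fun a => hmem _ (algebraMap Qb _ a)
      (by rw [(extQ (F1 M)).emb_algebraMap, AlgEquiv.commutes]))
    (fun y hy => hmem _ y (diaF_full u _ (emb_full y hy)).symm)
    (fun a => hmem _ ⟨uK Qb (a * u), uK_mem_baseChange Qb (a * u)⟩ (diaF_emb_uK u a).symm) x
  exact RingHom.mem_fieldRange.mp (Subfield.mem_comap.mp hT)

/-- The diamond endomorphism over `ℚ̄`, as a function. -/
def diaQFun (u : (ZMod M)ˣ) (x : FQ (F1 M)) : FQ (F1 M) := (exists_diaFQ u x).choose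

theorem emb_diaQFun (u : (ZMod M)ˣ) (x : FQ (F1 M)) :
    (extQ (F1 M)).emb (diaQFun u x) = diaF u ((extQ (F1 M)).emb x) :=
  (exists_diaFQ u x).choose_spec

/-- The diamond endomorphism over `ℚ̄`, as a ring homomorphism. -/
def diaQRingHom (u : (ZMod M)ˣ) : FQ (F1 M) →+* FQ (F1 M) where
  toFun := diaQFun u
  map_one' := (extQ (F1 M)).emb.injective
    ((emb_diaQFun u 1).trans (by rw [map_one, map_one]))
  map_zero' := (extQ (F1 M)).emb.injective
    ((emb_diaQFun u 0).trans (by rw [map_zero, map_zero]))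
  map_mul' x y := (extQ (F1 M)).emb.injective
    (((emb_diaQFun u (x * y)).trans (by rw [map_mul, map_mul])).trans
      ((congrArg₂ (· * ·) (emb_diaQFun u x) (emb_diaQFun u y)).symm.trans
        (map_mul (extQ (F1 M)).emb _ _).symm))
  map_add' x y := (extQ (F1 M)).emb.injective
    (((emb_diaQFun u (x + y)).trans (by rw [map_add, map_add])).trans
      ((congrArg₂ (· + ·) (emb_diaQFun u x) (emb_diaQFun u y)).symm.trans
        (map_add (extQ (F1 M)).emb _ _).symm))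

theorem emb_diaQRingHom (u : (ZMod M)ˣ) (x : FQ (F1 M)) :
    (extQ (F1 M)).emb (diaQRingHom u x) = diaF u ((extQ (F1 M)).emb x) :=
  emb_diaQFun u x

theorem diaQRingHom_algebraMap (u : (ZMod M)ˣ) (a : Qb) :
    diaQRingHom u (algebraMap Qb (FQ (F1 M)) a) = algebraMap Qb (FQ (F1 M)) a :=
  (extQ (F1 M)).emb.injective
    ((emb_diaQRingHom u _).trans (by rw [(extQ (F1 M)).emb_algebraMap, AlgEquiv.commutes]))

/-- The diamond endomorphism over `ℚ̄`. -/
def diaQHom (u : (ZMod M)ˣ) : FQ (F1 M) →ₐ[Qb] FQ (F1 M) :=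
  { diaQRingHom u with commutes' := diaQRingHom_algebraMap u }

theorem emb_diaQHom (u : (ZMod M)ˣ) (x : FQ (F1 M)) :
    (extQ (F1 M)).emb (diaQHom u x) = diaF u ((extQ (F1 M)).emb x) :=
  emb_diaQFun u x

theorem diaF_diaF (u v : (ZMod M)ˣ) (x : F1C M) : diaF u (diaF v x) = diaF (v * u) x := by
  obtain ⟨a, b, -, rfl⟩ := exists_div_eq1 x
  simp only [map_div₀, diaF_toF1C, dia_dia]

theorem diaF_one (x : F1C M) : diaF 1 x = x := by
  obtain ⟨a, b, -, rfl⟩ := exists_div_eq1 x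
  simp only [map_div₀, diaF_toF1C, dia_one]

/-- The diamond automorphism over `ℚ̄`. -/
def diaFQ (M : ℕ) [NeZero M] [GoodLevel M] (u : (ZMod M)ˣ) : FQ (F1 M) ≃ₐ[Qb] FQ (F1 M) :=
  AlgEquiv.ofAlgHom (diaQHom u) (diaQHom u⁻¹)
    (AlgHom.ext fun x => (extQ (F1 M)).emb.injective (by
      rw [AlgHom.comp_apply, emb_diaQHom, emb_diaQHom, diaF_diaF, inv_mul_cancel, diaF_one,
        AlgHom.id_apply]))
    (AlgHom.ext fun x => (extQ (F1 M)).emb.injective (by
      rw [AlgHom.comp_apply, emb_diaQHom, emb_diaQHom, diaF_diaF, mul_inv_cancel, diaF_one,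
        AlgHom.id_apply]))

theorem emb_diaFQ (u : (ZMod M)ˣ) (x : FQ (F1 M)) :
    (extQ (F1 M)).emb (diaFQ M u x) = diaF u ((extQ (F1 M)).emb x) :=
  emb_diaQHom u x

theorem e11_emb_diaFQ (u : (ZMod M)ˣ) (x : FQ (F1 M)) :
    e11 M ((extQ (F1 M)).emb (diaFQ M u x))
      = actMer (diaRep u) (e11 M ((extQ (F1 M)).emb x)) := by
  rw [emb_diaFQ, e11_diaF]

theorem diaFQ_full (u : (ZMod M)ˣ) (x : FQ (F1 M))
    (hx : (x : LaurentSeries Qb) ∈ laurentBaseChange Qb (modularFunctionFieldFull M)) :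
    diaFQ M u x = x := by
  refine (extQ (F1 M)).emb.injective ?_
  rw [emb_diaFQ, diaF_full u _ (emb_full x hx)]

theorem diaFQ_uK (u a : (ZMod M)ˣ) :
    diaFQ M u ⟨uK Qb a, uK_mem_baseChange Qb a⟩
      = ⟨uK Qb (a * u), uK_mem_baseChange Qb (a * u)⟩ :=
  (extQ (F1 M)).emb.injective ((emb_diaFQ u _).trans (diaF_emb_uK u a))

theorem diaFQ_galois (u : (ZMod M)ˣ) (σ : Qb ≃ₐ[ℚ] Qb) (x : FQ (F1 M)) :
    diaFQ M u (arithmeticRingAut (F1 M) σ x) = arithmeticRingAut (F1 M) σ (diaFQ M u x) := by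
  let g := (arithmeticRingAut (F1 M) σ).toRingHom
  let d := (diaFQ M u).toAlgHom.toRingHom
  refine mem_of_gens ((d.comp g).eqLocusField (g.comp d)) (fun a => ?_) (fun x hx => ?_)
    (fun a => ?_) x
  · show diaFQ M u (arithmeticRingAut (F1 M) σ (algebraMap Qb _ a))
      = arithmeticRingAut (F1 M) σ (diaFQ M u (algebraMap Qb _ a))
    rw [arithmeticRingAut_algebraMap, AlgEquiv.commutes, AlgEquiv.commutes,
      arithmeticRingAut_algebraMap]
  · show diaFQ M u (arithmeticRingAut (F1 M) σ x) = arithmeticRingAut (F1 M) σ (diaFQ M u x)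
    rw [diaFQ_full u x hx, diaFQ_full]
    exact coeffMap_mem_laurentBaseChange σ hx
  · show diaFQ M u (arithmeticRingAut (F1 M) σ ⟨uK Qb a, uK_mem_baseChange Qb a⟩)
      = arithmeticRingAut (F1 M) σ (diaFQ M u ⟨uK Qb a, uK_mem_baseChange Qb a⟩)
    have h : ∀ b : (ZMod M)ˣ, arithmeticRingAut (F1 M) σ ⟨uK Qb b, uK_mem_baseChange Qb b⟩
        = ⟨uK Qb b, uK_mem_baseChange Qb b⟩ := fun b =>
      Subtype.ext (coeffMap_uK Qb (σ : Qb →+* Qb) b)
    rw [h, diaFQ_uK, h]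

end Fermat.Agent.DeligneSerre.Curve
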